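import Mathlib
import Fermat.Agent.S34.PhiShape
import Fermat.Agent.S30.GaussDescent

/-!
# S34 / Program U, (SAT) plug-in: the modular equation with integer coefficients

For a prime `ℓ` there is a polynomial `G ∈ ℤ[X][Y]`, monic in `Y`, with
`G(j(q), j(q^ℓ)) = 0` as a Laurent series over `ℤ`, hence over every commutative ring
(`exists_modEq_int`, `evalJ_modEq`).  Consequently `j(q^ℓ)` is integral over `ℤ[j]`.

Proof: `PhiShape.exists_isShape` gives a monic equation over `ℚ̄` whose coefficients are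
integral over `ℤ`; transitivity of integrality over `ℤ[X]` (acting through `X ↦ j`) produces an
equation over `ℤ[X]`, and `ℤ((q)) → ℚ̄((q))` is injective.
-/

set_option autoImplicit false
set_option linter.style.haveILetI false

open ModularCurve Polynomial

noncomputable section

namespace Fermat.Agent.S34.Sat

local notation "Qb" => AlgebraicClosure ℚ

/-- Evaluation of integer polynomials at `j`: `ℤ[X] → S((q))`, `X ↦ jqModC S`. -/
def evalJ (S : Type*) [CommRing S] : Polynomial ℤ →+* LaurentSeries S :=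
  (Polynomial.eval₂RingHom (HahnSeries.C : S →+* LaurentSeries S) (jqModC S)).comp
    (Polynomial.mapRingHom (Int.castRingHom S))

theorem evalJ_X (S : Type*) [CommRing S] : evalJ S X = jqModC S := by
  simp [evalJ]

theorem evalJ_C (S : Type*) [CommRing S] (n : ℤ) : evalJ S (C n) = HahnSeries.C (n : S) := by
  simp [evalJ]

theorem coeffMap_comp_evalJ' {S T : Type*} [CommRing S] [CommRing T] (f : S →+* T) :
    (coeffMap f).comp (evalJ S) = evalJ T := by
  refine Polynomial.ringHom_ext (fun n => ?_) ?_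
  · rw [RingHom.comp_apply, evalJ_C, evalJ_C, HahnSeries.C_apply, HahnSeries.C_apply,
      coeffMap_single, map_intCast]
  · rw [RingHom.comp_apply, evalJ_X, evalJ_X, coeffMap_jqModC]

/-- **The modular equation over `ℤ`.** -/
theorem exists_modEq_int {ℓ : ℕ} [NeZero ℓ] (hℓ : ℓ.Prime) :
    ∃ G : Polynomial (Polynomial ℤ), G.Monic ∧
      G.eval₂ (evalJ ℤ) (qExpand ℤ ℓ (jqModC ℤ)) = 0 := by
  classical
  obtain ⟨P, hP⟩ := PhiShape.exists_isShape hℓ Qb
  letI algZ : Algebra (Polynomial ℤ) (LaurentSeries Qb) := (evalJ Qb).toAlgebra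
  have hJ : jqModC Qb ∈ integralClosure (Polynomial ℤ) (LaurentSeries Qb) := by
    have h1 : jqModC Qb = algebraMap (Polynomial ℤ) (LaurentSeries Qb) X := (evalJ_X Qb).symm
    rw [h1]
    exact isIntegral_algebraMap
  have hC : ∀ c : Qb, IsIntegral ℤ c →
      (HahnSeries.C c : LaurentSeries Qb) ∈ integralClosure (Polynomial ℤ) (LaurentSeries Qb) := by
    intro c hc
    obtain ⟨p, hp, hpc⟩ := hc
    refine ⟨p.map (Polynomial.C : ℤ →+* Polynomial ℤ), hp.map _, ?_⟩
    rw [Polynomial.eval₂_map]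
    have h1 : (algebraMap (Polynomial ℤ) (LaurentSeries Qb)).comp
        (Polynomial.C : ℤ →+* Polynomial ℤ)
        = (HahnSeries.C : Qb →+* LaurentSeries Qb).comp (algebraMap ℤ Qb) :=
      Subsingleton.elim _ _
    rw [h1, ← Polynomial.hom_eval₂, hpc, map_zero]
  have hcoef : ∀ k, (P.coeff k).eval₂ (HahnSeries.C : Qb →+* LaurentSeries Qb) (jqModC Qb)
      ∈ integralClosure (Polynomial ℤ) (LaurentSeries Qb) := by
    intro k
    rw [Polynomial.eval₂_eq_sum_range]
    exact Subalgebra.sum_mem _ fun i _ =>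
      Subalgebra.mul_mem _ (hC _ (hP.integral k i)) (Subalgebra.pow_mem _ hJ i)
  have hroot : (P.map (Polynomial.eval₂RingHom (HahnSeries.C : Qb →+* LaurentSeries Qb)
      (jqModC Qb))).eval (qExpand Qb ℓ (jqModC Qb)) = 0 := by
    have h1 := hP.root
    rw [Fermat.Agent.S28.Defs.qE, dif_neg (NeZero.ne ℓ)] at h1
    rw [Polynomial.eval_map]
    exact h1
  have hl : P.map (Polynomial.eval₂RingHom (HahnSeries.C : Qb →+* LaurentSeries Qb)
      (jqModC Qb)) ∈ Polynomial.lifts
        (algebraMap (integralClosure (Polynomial ℤ) (LaurentSeries Qb)) (LaurentSeries Qb)) := by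
    rw [Polynomial.lifts_iff_coeff_lifts]
    intro k
    rw [Polynomial.coeff_map]
    exact ⟨⟨_, hcoef k⟩, rfl⟩
  obtain ⟨Q', hQ', -, hQ'm⟩ := Polynomial.lifts_and_natDegree_eq_and_monic hl (hP.monic.map _)
  have hint : IsIntegral (integralClosure (Polynomial ℤ) (LaurentSeries Qb))
      (qExpand Qb ℓ (jqModC Qb)) := by
    refine ⟨Q', hQ'm, ?_⟩
    rw [← Polynomial.eval_map, hQ']
    exact hroot
  obtain ⟨G, hGm, hG⟩ := isIntegral_trans (R := Polynomial ℤ) _ hint
  refine ⟨G, hGm, ?_⟩
  apply Fermat.Agent.S30.GaussDescent.coeffMap_intCast_injective Qb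
  rw [map_zero, Polynomial.hom_eval₂, coeffMap_comp_evalJ', coeffMap_qExpand, coeffMap_jqModC]
  exact hG

/-- The modular equation over an arbitrary commutative ring. -/
theorem evalJ_modEq {ℓ : ℕ} [NeZero ℓ] {G : Polynomial (Polynomial ℤ)}
    (hG : G.eval₂ (evalJ ℤ) (qExpand ℤ ℓ (jqModC ℤ)) = 0) (S : Type*) [CommRing S] :
    G.eval₂ (evalJ S) (qExpand S ℓ (jqModC S)) = 0 := by
  have h := congrArg (coeffMap (Int.castRingHom S)) hG
  rw [map_zero, Polynomial.hom_eval₂, coeffMap_comp_evalJ', coeffMap_qExpand,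
    coeffMap_jqModC] at h
  exact h

end Fermat.Agent.S34.Sat
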