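import Mathlib
import Fermat.Prelude.Def_ModularCurve_X0ModL
import Fermat.Prelude.Thm_ModularCurve_coeffMap_qExpand
import Fermat.Agent.S30.Congr

/-!
# S34 / Program U, (SAT): formal series lemmas

`k` a field, `J = jqModC k` (`q⁻¹ + ⋯`), `ℓ ≥ 1`.

* `order_jqModC` : `J` has order `-1`.
* `sum_ne_zero_of_order_injOn` : a finite sum of series, whose nonzero terms have pairwise
  distinct orders and which has a nonzero term, is nonzero.
* `eq_zero_of_sum_qExpand_mul_pow` : `1, J, …, J^(ℓ-1)` are linearly independent over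
  `k((q^ℓ))`: `∑_{i<ℓ} cᵢ(q^ℓ) Jⁱ = 0` forces all `cᵢ = 0`.
* `qExpand_jqModC_of_charP` : Frobenius congruence `J(q^ℓ) = J^ℓ` in characteristic `ℓ`.
-/

set_option autoImplicit false

open ModularCurve HahnSeries

namespace Fermat.Agent.S34.Sat

section Series

/-- Coefficients of `jqModC` below `q⁻¹` vanish. -/
theorem coeff_jqModC_of_lt (K : Type*) [CommRing K] {n : ℤ} (hn : n < -1) :
    (jqModC K).coeff n = 0 := by
  unfold jqModC
  have h := HahnSeries.coeff_single_mul_add (r := (1 : K))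
    (x := ofPowerSeries ℤ K (jNum.map (Int.castRingHom K))) (a := n + 1) (b := (-1 : ℤ))
  rw [show n + 1 + -1 = n by ring, one_mul] at h
  rw [h]
  exact ofPowerSeries_coeff_of_neg _ (by omega)

/-- The coefficient of `q⁻¹` in `jqModC` is `1`. -/
theorem coeff_jqModC_neg_one' (K : Type*) [CommRing K] : (jqModC K).coeff (-1 : ℤ) = 1 := by
  unfold jqModC
  have h := HahnSeries.coeff_single_mul_add (r := (1 : K))
    (x := ofPowerSeries ℤ K (jNum.map (Int.castRingHom K))) (a := (0 : ℤ)) (b := (-1 : ℤ))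
  rw [show (0 : ℤ) + -1 = -1 by ring, one_mul] at h
  rw [h, show (0 : ℤ) = ((0 : ℕ) : ℤ) by rfl, HahnSeries.ofPowerSeries_apply_coeff,
    PowerSeries.coeff_map, PowerSeries.coeff_zero_eq_constantCoeff_apply, constantCoeff_jNum,
    map_one]

theorem jqModC_ne_zero (K : Type*) [CommRing K] [Nontrivial K] : jqModC K ≠ 0 :=
  ne_zero_of_coeff_ne_zero (by rw [coeff_jqModC_neg_one']; exact one_ne_zero)

/-- `jqModC` has order `-1`. -/
theorem order_jqModC (K : Type*) [CommRing K] [Nontrivial K] : (jqModC K).order = -1 := by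
  have h1 : (jqModC K).coeff (-1 : ℤ) ≠ 0 := by
    rw [coeff_jqModC_neg_one']; exact one_ne_zero
  apply le_antisymm (HahnSeries.order_le_of_coeff_ne_zero h1)
  by_contra hlt
  push Not at hlt
  exact (HahnSeries.coeff_order_eq_zero.not.mpr (jqModC_ne_zero K)) (coeff_jqModC_of_lt K hlt)

variable {k : Type*} [Field k]

/-- A finite sum of Laurent series whose nonzero terms have pairwise distinct orders, and which
has a nonzero term, is nonzero. -/
theorem sum_ne_zero_of_order_injOn {ι : Type*} (s : Finset ι) (t : ι → LaurentSeries k)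
    (hinj : ∀ i ∈ s, ∀ i' ∈ s, t i ≠ 0 → t i' ≠ 0 → (t i).order = (t i').order → i = i')
    (hex : ∃ i ∈ s, t i ≠ 0) : ∑ i ∈ s, t i ≠ 0 := by
  classical
  obtain ⟨i₁, hi₁, hne₁⟩ := hex
  have hne : (s.filter fun i => t i ≠ 0).Nonempty := ⟨i₁, Finset.mem_filter.mpr ⟨hi₁, hne₁⟩⟩
  obtain ⟨i₀, hi₀, hmin⟩ :=
    Finset.exists_min_image (s.filter fun i => t i ≠ 0) (fun i => (t i).order) hne
  rw [Finset.mem_filter] at hi₀
  intro h0
  have h1 := congrArg (fun x : LaurentSeries k => x.coeff (t i₀).order) h0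
  simp only [HahnSeries.coeff_zero] at h1
  rw [HahnSeries.coeff_sum, Finset.sum_eq_single_of_mem i₀ hi₀.1] at h1
  · exact (HahnSeries.coeff_order_eq_zero.not.mpr hi₀.2) h1
  · intro i hi hii
    by_cases hti : t i = 0
    · rw [hti, HahnSeries.coeff_zero]
    · apply HahnSeries.coeff_eq_zero_of_lt_order
      have hle := hmin i (Finset.mem_filter.mpr ⟨hi, hti⟩)
      exact lt_of_le_of_ne hle (fun heq => hii (hinj i hi i₀ hi₀.1 hti hi₀.2 heq.symm))

/-- The order of a series in `q^ℓ` is divisible by `ℓ`. -/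
theorem dvd_order_qExpand (ℓ : ℕ) [NeZero ℓ] (c : LaurentSeries k) :
    (ℓ : ℤ) ∣ (qExpand k ℓ c).order := by
  by_cases hc : qExpand k ℓ c = 0
  · rw [hc, HahnSeries.order_zero]; exact dvd_zero _
  · by_contra hnd
    exact (HahnSeries.coeff_order_eq_zero.not.mpr hc) (qExpand_coeff_of_not_dvd ℓ c hnd)

/-- `1, J, …, J^(ℓ-1)` are linearly independent over `k((q^ℓ))`. -/
theorem eq_zero_of_sum_qExpand_mul_pow (ℓ : ℕ) [NeZero ℓ] (c : Fin ℓ → LaurentSeries k)
    (h : ∑ i : Fin ℓ, qExpand k ℓ (c i) * jqModC k ^ (i : ℕ) = 0) : ∀ i, c i = 0 := by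
  by_contra hcon
  push Not at hcon
  obtain ⟨i₁, hi₁⟩ := hcon
  have hJ : jqModC k ≠ 0 := jqModC_ne_zero k
  have hq : ∀ i, c i ≠ 0 → qExpand k ℓ (c i) ≠ 0 := fun i hi h0 =>
    hi (qExpand_injective ℓ (by rw [h0, map_zero]))
  have hne : ∀ i, c i ≠ 0 → qExpand k ℓ (c i) * jqModC k ^ (i : ℕ) ≠ 0 := fun i hi =>
    mul_ne_zero (hq i hi) (pow_ne_zero _ hJ)
  have hord : ∀ i, c i ≠ 0 → ∃ m : ℤ,
      (qExpand k ℓ (c i) * jqModC k ^ (i : ℕ)).order = (ℓ : ℤ) * m - ((i : ℕ) : ℤ) := by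
    intro i hi
    obtain ⟨m, hm⟩ := dvd_order_qExpand ℓ (c i)
    refine ⟨m, ?_⟩
    rw [HahnSeries.order_mul (hq i hi) (pow_ne_zero _ hJ), HahnSeries.order_pow, order_jqModC, hm]
    simp only [nsmul_eq_mul, mul_neg, mul_one]
    ring
  refine sum_ne_zero_of_order_injOn Finset.univ _ ?_ ⟨i₁, Finset.mem_univ _, hne i₁ hi₁⟩ h
  intro i _ i' _ hti hti' heq
  have hci : c i ≠ 0 := by
    rintro h0; apply hti; rw [h0, map_zero, zero_mul]
  have hci' : c i' ≠ 0 := by
    rintro h0; apply hti'; rw [h0, map_zero, zero_mul]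
  obtain ⟨m, hm⟩ := hord i hci
  obtain ⟨m', hm'⟩ := hord i' hci'
  rw [hm, hm'] at heq
  apply Fin.ext
  have h1 : (ℓ : ℤ) ∣ ((i : ℕ) : ℤ) - ((i' : ℕ) : ℤ) := ⟨m - m', by linarith⟩
  have hi := i.2
  have hi' := i'.2
  have h2 := Int.eq_zero_of_abs_lt_dvd h1 (by rw [abs_lt]; constructor <;> omega)
  omega

/-- Frobenius congruence: `J(q^ℓ) = J^ℓ` over a ring of prime characteristic `ℓ`. -/
theorem qExpand_jqModC_of_charP (K : Type*) [CommRing K] (ℓ : ℕ) [NeZero ℓ] [Fact ℓ.Prime]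
    [CharP K ℓ] : qExpand K ℓ (jqModC K) = jqModC K ^ ℓ := by
  have hℓ : 0 < ℓ := Nat.pos_of_ne_zero (NeZero.ne ℓ)
  have h2 : coeffMap (frobenius K ℓ) (jqModC K) = jqModC K := coeffMap_jqModC _
  have h3 := Fermat.Agent.S30.Congr.expand_coeffMap_frobenius ℓ hℓ (jqModC K)
  rw [h2] at h3
  exact h3

end Series

end Fermat.Agent.S34.Sat
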