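import Mathlib
import Fermat.Agent.S34.FinalGt3
import Fermat.Agent.S34.Sat
import Fermat.Agent.S34.LevelM
import Fermat.Agent.S34.Modular.Datum
import Fermat.Agent.S34.Modular.KroneckerChart
import Fermat.Agent.Lib.Frobenius

/-!
# S34 / Program U: the nodal datum at `u = α j` and `RootDatumGt3` from the E-level `hinf`

Twin of `Modular/DatumE` (own path and namespace), assembled from landed bricks only:
`Modular.Datum.nodalDatum` ∘ `Sat` (the `j`-literals of the `TwoPrimesGauss` block) ∘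
`HauptU.Plug` (coordinate-free block) ∘ `LevelM.exists_levelM_facts` (`hprime`, `hD`) ∘
`KroneckerChart.hK_redM_of_coeffEmb` (`hK`) ∘ `FinalGt3.hasRootDatum_j`.

* `hK_j` : the Kronecker hypothesis `hK` at `u' = jE M E`;
* `exists_nodalDatum_alpha_j` : for a fixed number field `E` (instance arguments with the
  `CommRing` path spelled out, see below), the nodal datum of `u = α (jE M E)` together with the
  two Gauss characterisations of its primes, from `hprime`, `hD` (level `M`), a Frobenius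
  element and `hinf`;
* `HinfGt3` : the E-level `hinf` (chart at infinity) uniformly in `E`, as a `Prop`;
* `rootDatumGt3_of_hinf : HinfGt3 → FinalGt3.RootDatumGt3`, hence
  `rootGt3_of_hinf : HinfGt3 → Final.RootGt3`.

Binder note: `[Algebra (OE A E) (LE M E)]` elaborates its `CommSemiring ↥(OE A E)` through
`SubsemiringClass`, which breaks instance search for ring structures on chart rings; the
binders here are `[@Algebra (OE A E) (LE M E) CommRing.toCommSemiring _]`.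
-/

set_option autoImplicit false
set_option linter.unusedSectionVars false
set_option linter.unusedVariables false
set_option linter.style.haveILetI false
set_option synthInstance.maxHeartbeats 400000

open ModularCurve Polynomial

noncomputable section

namespace Fermat.Agent.S34.Sat.DatumJ

open Fermat.Agent.S18.K1Defs Fermat.Agent.S18.K1Main Fermat.Agent.S30
open Fermat.Agent.S34.TwoPrimesRank Fermat.Agent.S34.HauptU.Plug Fermat.Agent.S34.TwoPrimesGauss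
open Fermat.Agent.S34 Fermat.Agent.S34.Modular

local notation "Qb" => AlgebraicClosure ℚ
local notation "Gq" => (AlgebraicClosure ℚ ≃ₐ[ℚ] AlgebraicClosure ℚ)

section Fixed

variable (M ℓ : ℕ) [NeZero M] [NeZero ℓ] (hℓ : ℓ.Prime) (hℓM : ¬ ℓ ∣ M)
  (A : ValuationSubring Qb) (hA : A.LiesOverPrime ℓ) (E : IntermediateField ℚ Qb) [Normal ℚ E]
  [IsDiscreteValuationRing (OE A E)]
  [@Algebra (OE A E) (LE M E) CommRing.toCommSemiring _] [IsScalarTower (OE A E) E (LE M E)]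
  [@Algebra (OE A E) (LE (M * ℓ) E) CommRing.toCommSemiring _]
  [IsScalarTower (OE A E) E (LE (M * ℓ) E)]
  (π : OE A E) (hπ : Irreducible π)

include hℓ hA in
/-- `hK` at `u' = j`. -/
theorem hK_j {φ : Gq} (hφ : A.IsFrobeniusAt φ ℓ) :
    ∀ r : Chart (OE A E) (jE M E), ∃ s : Chart (OE A E) (jE M E),
      qExpand (IsLocalRing.ResidueField (OE A E)) ℓ
        (redM π hπ (alphaHom M ℓ E) (alphaHom_algebraMap M ℓ E) (sigmaHom (M * ℓ) E)
          (sigmaHom_algebraMap (M * ℓ) E) (sigmaHom_mem_fracField (M * ℓ) E A) (jE M E)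
          (jqModC (OE A E)) (Sat.hσu_j M ℓ E) r)
        = redM π hπ (alphaHom M ℓ E) (alphaHom_algebraMap M ℓ E) (sigmaHom (M * ℓ) E)
          (sigmaHom_algebraMap (M * ℓ) E) (sigmaHom_mem_fracField (M * ℓ) E A) (jE M E)
          (jqModC (OE A E)) (Sat.hσu_j M ℓ E) s ^ ℓ :=
  KroneckerChart.hK_redM_of_coeffEmb A E ℓ hℓ hA hφ M π hπ (alphaHom M ℓ E)
    (alphaHom_algebraMap M ℓ E) (sigmaHom (M * ℓ) E) (sigmaHom_algebraMap (M * ℓ) E)
    (sigmaHom_mem_fracField (M * ℓ) E A) (jE M E) (jqModC (OE A E)) (Sat.hσu_j M ℓ E)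
    (Sat.sigma_alpha M ℓ E) jq (coe_jE M E)

include hA in
/-- The nodal datum of `u = α j` at level `M ℓ` from the level-`M` facts and `hinf`. -/
theorem exists_nodalDatum_alpha_j {φ : Gq} (hφ : A.IsFrobeniusAt φ ℓ)
    (hprime : Prime (piC (jE M E) π))
    (hD : IsDedekindDomain (TwoPrimesGauss.Chart (OE A E) (jE M E) ⧸
      Ideal.span {TwoPrimesGauss.piC (jE M E) π}))
    (hinf : Nodal.IsNodalChart π (alphaHom M ℓ E (jE M E))⁻¹
      ((Datum.P₁ π hπ (alphaHom M ℓ E) (sigmaHom (M * ℓ) E) (sigmaHom_algebraMap (M * ℓ) E)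
        (sigmaHom_mem_fracField (M * ℓ) E A) (jE M E) (jqModC (OE A E)) (Sat.hσu_j M ℓ E)
        (Sat.hρ_j _)).comap (Nodal.toOverlapInf (OE A E) (alphaHom M ℓ E (jE M E))))
      ((Datum.P₂ π hπ (alphaHom M ℓ E) (sigmaHom (M * ℓ) E) (sigmaHom_algebraMap (M * ℓ) E)
        (sigmaHom_mem_fracField (M * ℓ) E A) (jE M E) (jqModC (OE A E)) (Sat.hσu_j M ℓ E)
        (wHom M ℓ E hℓ hℓM) (wHom_algebraMap M ℓ E hℓ hℓM) ℓ
        (sigmaHom_wHom_alpha M ℓ E hℓ hℓM) (Sat.hρ_j _)).comap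
          (Nodal.toOverlapInf (OE A E) (alphaHom M ℓ E (jE M E))))) :
    ∃ D : Nodal.NodalDatum π (alphaHom M ℓ E (jE M E)),
      (∀ (x : Nodal.Overlap (OE A E) (alphaHom M ℓ E (jE M E)))
        (hx : sigmaHom (M * ℓ) E (x : LE (M * ℓ) E) ∈ GaussDVR.V (OE A E) E),
        x ∈ D.P₁ ↔ GaussDVR.red (OE A E) E ⟨_, hx⟩ = 0) ∧
      (∀ (x : Nodal.Overlap (OE A E) (alphaHom M ℓ E (jE M E)))
        (hx : sigmaHom (M * ℓ) E (wHom M ℓ E hℓ hℓM (x : LE (M * ℓ) E)) ∈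
          GaussDVR.V (OE A E) E),
        x ∈ D.P₂ ↔ GaussDVR.red (OE A E) E ⟨_, hx⟩ = 0) := by
  haveI := Sat.charP_residue_OE' A E hℓ hA
  refine ⟨Datum.nodalDatum π hπ (alphaHom M ℓ E) (alphaHom_algebraMap M ℓ E)
    (sigmaHom (M * ℓ) E) (sigmaHom_algebraMap (M * ℓ) E) (sigmaHom_mem_fracField (M * ℓ) E A)
    (jE M E) (jqModC (OE A E)) (Sat.hσu_j M ℓ E) (wHom M ℓ E hℓ hℓM)
    (wHom_algebraMap M ℓ E hℓ hℓM) ℓ (sigmaHom_wHom_alpha M ℓ E hℓ hℓM)
    (wHom_wHom M ℓ E hℓ hℓM) hprime (Sat.hcop_j _ ℓ) (Sat.hord_j _) hℓ.two_le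
    (Sat.hfrob_j _ ℓ hℓ) (Sat.hwu_j M ℓ E hℓ hℓM) (Sat.hrank_j M ℓ E hℓ hℓM) (Sat.hρ_j _)
    hD (hK_j M ℓ hℓ A hA E π hπ hφ) hinf, ?_, ?_⟩
  · intro x hx
    exact Datum.mem_P₁_iff π hπ (alphaHom M ℓ E) (sigmaHom (M * ℓ) E)
      (sigmaHom_algebraMap (M * ℓ) E) (sigmaHom_mem_fracField (M * ℓ) E A) (jE M E)
      (jqModC (OE A E)) (Sat.hσu_j M ℓ E) (Sat.hρ_j _) x hx
  · intro x hx
    exact Datum.mem_P₂_iff π hπ (alphaHom M ℓ E) (sigmaHom (M * ℓ) E)
      (sigmaHom_algebraMap (M * ℓ) E) (sigmaHom_mem_fracField (M * ℓ) E A) (jE M E)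
      (jqModC (OE A E)) (Sat.hσu_j M ℓ E) (wHom M ℓ E hℓ hℓM) (wHom_algebraMap M ℓ E hℓ hℓM) ℓ
      (sigmaHom_wHom_alpha M ℓ E hℓ hℓM) (Sat.hρ_j _) x hx

end Fixed

/-- The E-level `hinf` at `u' = j`, uniformly in `E` (exit of `Modular/HinfE`). -/
def HinfGt3 : Prop :=
  ∀ (M ℓ : ℕ) [NeZero M] [NeZero ℓ] (hℓ : ℓ.Prime) (hℓM : ¬ ℓ ∣ M), 3 < ℓ →
    ∀ A : ValuationSubring Qb, A.LiesOverPrime ℓ →
      ∃ S₀ : Finset Qb, ∀ (E : IntermediateField ℚ Qb) [FiniteDimensional ℚ E] [Normal ℚ E]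
        [IsDiscreteValuationRing (OE A E)], (∀ s ∈ S₀, s ∈ E) →
        ∀ (π : OE A E) (hπ : Irreducible π),
          letI := algebraOL (OE A E) E (LE M E)
          letI := algebraOL (OE A E) E (LE (M * ℓ) E)
          haveI := isScalarTower_OL (OE A E) E (LE M E)
          haveI := isScalarTower_OL (OE A E) E (LE (M * ℓ) E)
          Nodal.IsNodalChart π (alphaHom M ℓ E (jE M E))⁻¹
            ((Datum.P₁ π hπ (alphaHom M ℓ E) (sigmaHom (M * ℓ) E)
              (sigmaHom_algebraMap (M * ℓ) E) (sigmaHom_mem_fracField (M * ℓ) E A) (jE M E)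
              (jqModC (OE A E)) (Sat.hσu_j M ℓ E) (Sat.hρ_j _)).comap
                (Nodal.toOverlapInf (OE A E) (alphaHom M ℓ E (jE M E))))
            ((Datum.P₂ π hπ (alphaHom M ℓ E) (sigmaHom (M * ℓ) E)
              (sigmaHom_algebraMap (M * ℓ) E) (sigmaHom_mem_fracField (M * ℓ) E A) (jE M E)
              (jqModC (OE A E)) (Sat.hσu_j M ℓ E) (wHom M ℓ E hℓ hℓM)
              (wHom_algebraMap M ℓ E hℓ hℓM) ℓ (sigmaHom_wHom_alpha M ℓ E hℓ hℓM)
              (Sat.hρ_j _)).comap (Nodal.toOverlapInf (OE A E) (alphaHom M ℓ E (jE M E))))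

set_option maxHeartbeats 1000000 in
/-- **`RootDatumGt3` from the E-level `hinf`.** -/
theorem rootDatumGt3_of_hinf (h : HinfGt3) : FinalGt3.RootDatumGt3 := by
  intro M ℓ _ _ hℓ hℓM h3 A hA
  haveI : Fact ℓ.Prime := ⟨hℓ⟩
  obtain ⟨S₁, hS₁⟩ := LevelM.exists_levelM_facts M hℓM h3 A hA
  obtain ⟨S₂, hS₂⟩ := h M ℓ hℓ hℓM h3 A hA
  obtain ⟨φ, hφ⟩ := Fermat.Agent.Lib.Frobenius.exists_isFrobeniusAt A hℓ hA
  classical
  refine ⟨S₁ ∪ S₂, fun E _ _ _ hE π hπ => ?_⟩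
  letI := algebraOL (OE A E) E (LE M E)
  letI := algebraOL (OE A E) E (LE (M * ℓ) E)
  haveI := isScalarTower_OL (OE A E) E (LE M E)
  haveI := isScalarTower_OL (OE A E) E (LE (M * ℓ) E)
  obtain ⟨-, -, hprime, -, hD, -, -, -⟩ :=
    hS₁ E (fun s hs => hE s (Finset.mem_union_left _ hs)) π hπ
  have hinf := hS₂ E (fun s hs => hE s (Finset.mem_union_right _ hs)) π hπ
  obtain ⟨D, hP₁, hP₂⟩ := exists_nodalDatum_alpha_j M ℓ hℓ hℓM A hA E π hπ hφ hprime hD hinf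
  exact FinalGt3.hasRootDatum_j M ℓ hℓ hℓM A E π (alphaHom M ℓ E (jE M E))
    (InertiaJ.alpha_jE M ℓ E) D hP₁ hP₂

/-- **`Final.RootGt3` from the E-level `hinf`.** -/
theorem rootGt3_of_hinf (h : HinfGt3) : Final.RootGt3 :=
  FinalGt3.rootGt3_of_datum (rootDatumGt3_of_hinf h)

end Fermat.Agent.S34.Sat.DatumJ
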