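import Mathlib
import Fermat.Agent.S34.Sat.DatumJ
import Fermat.Agent.S34.Modular.ChartInfE
import Fermat.Agent.S34.ChartInfAlt.ModEqE
import Fermat.Agent.S34.ChartInfAlt.KInvE

/-!
# S34 / Program U: the E-level chart at infinity for `u' = j`, and `Final.RootGt3`

Twin of `Modular/HinfE` (own path and namespace), assembled from landed bricks only:
`Modular.ChartInfE.hinf_of_modEq` (level-free `ε`-route) ∘ `Sat` (the `1/j` literals:
`XqO`, `hσu_inv`, `hcop_inv`, `hord_inv`, `hfrob_inv`, `hrank_inv`) ∘ `HauptU.Plug` ∘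
`LevelM.exists_levelM_facts` (`Prime (piC j⁻¹ π)`, Dedekind special fibre at infinity) ∘
`ChartInfAlt.exists_isShape_OE` / `root_of_isShape` (modular equation over `OE A E`) ∘
`ChartInfAlt.hK_inv` (Kronecker congruence at `1/j`).

* `hinfGt3 : Sat.DatumJ.HinfGt3`;
* `rootDatumGt3 : FinalGt3.RootDatumGt3`;
* `rootGt3 : Final.RootGt3` — the `ℓ > 3` half of the open statement of S34.
-/

set_option autoImplicit false
set_option linter.unusedSectionVars false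
set_option linter.unusedVariables false
set_option linter.style.haveILetI false
set_option synthInstance.maxHeartbeats 400000

open ModularCurve Polynomial

noncomputable section

namespace Fermat.Agent.S34.Sat.HinfJ

open Fermat.Agent.S18.K1Defs Fermat.Agent.S18.K1Main Fermat.Agent.S30
open Fermat.Agent.S34.TwoPrimesRank Fermat.Agent.S34.HauptU.Plug Fermat.Agent.S34.TwoPrimesGauss
open Fermat.Agent.S34 Fermat.Agent.S34.Modular Fermat.Agent.S34.Sat.DatumJ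

local notation "Qb" => AlgebraicClosure ℚ
local notation "Gq" => (AlgebraicClosure ℚ ≃ₐ[ℚ] AlgebraicClosure ℚ)

set_option maxHeartbeats 1600000 in
/-- **The E-level chart at infinity for `u' = j`** (`ε`-route). -/
theorem hinfGt3 : HinfGt3 := by
  intro M ℓ _ _ hℓ hℓM h3 A hA
  haveI : Fact ℓ.Prime := ⟨hℓ⟩
  obtain ⟨S₁, hS₁⟩ := LevelM.exists_levelM_facts M hℓM h3 A hA
  obtain ⟨S₂, hS₂⟩ := ChartInfAlt.exists_isShape_OE hℓ A
  classical
  refine ⟨S₁ ∪ S₂, fun E _ _ _ hE π hπ => ?_⟩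
  letI := algebraOL (OE A E) E (LE M E)
  letI := algebraOL (OE A E) E (LE (M * ℓ) E)
  haveI := isScalarTower_OL (OE A E) E (LE M E)
  haveI := isScalarTower_OL (OE A E) E (LE (M * ℓ) E)
  obtain ⟨htr, -, -, hprime', -, hD', -, -⟩ :=
    hS₁ E (fun s hs => hE s (Finset.mem_union_left _ hs)) π hπ
  obtain ⟨P, hP⟩ := hS₂ E (fun s hs => hE s (Finset.mem_union_right _ hs))
  haveI := Sat.charP_residue_OE' A E hℓ hA
  have hu0 : jE M E ≠ 0 := fun h => htr (h ▸ isAlgebraic_zero)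
  exact ChartInfE.hinf_of_modEq π hπ (alphaHom M ℓ E) (alphaHom_algebraMap M ℓ E)
    (sigmaHom (M * ℓ) E) (sigmaHom_algebraMap (M * ℓ) E) (sigmaHom_mem_fracField (M * ℓ) E A)
    (jE M E) (jqModC (OE A E)) (Sat.hσu_j M ℓ E) (wHom M ℓ E hℓ hℓM)
    (wHom_algebraMap M ℓ E hℓ hℓM) ℓ (sigmaHom_wHom_alpha M ℓ E hℓ hℓM) (Sat.hρ_j _)
    (Sat.XqO (OE A E)) (Sat.hσu_inv M ℓ E) hu0 (wHom_wHom M ℓ E hℓ hℓM) hprime'
    (Sat.hcop_inv _ ℓ) (Sat.hord_inv _) hℓ.two_le (Sat.hfrob_inv _ ℓ hℓ)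
    (Sat.hrank_inv M ℓ E hℓ hℓM) P hP.monic hP.natDegree_eq
    (ChartInfAlt.natDegree_coeff_le_of_isShape hP)
    (ChartInfAlt.root_of_isShape (sigmaHom (M * ℓ) E) (sigmaHom_algebraMap (M * ℓ) E)
      (alphaHom M ℓ E (jE M E)) (Sat.hσu_j M ℓ E) (wHom M ℓ E hℓ hℓM (alphaHom M ℓ E (jE M E)))
      ℓ (sigmaHom_wHom_alpha M ℓ E hℓ hℓM (jE M E)) hP)
    hD'
    (ChartInfAlt.hK_inv A E ℓ hℓ hA M π hπ (alphaHom_algebraMap M ℓ E)
      (sigmaHom_algebraMap (M * ℓ) E) (sigmaHom_mem_fracField (M * ℓ) E A) (jE M E)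
      (Sat.XqO (OE A E)) (Sat.hσu_inv M ℓ E) jq (coe_jE M E))

/-- **`FinalGt3.RootDatumGt3`.** -/
theorem rootDatumGt3 : FinalGt3.RootDatumGt3 := rootDatumGt3_of_hinf hinfGt3

/-- **`Final.RootGt3`** : the `ℓ > 3` half of the open statement of S34. -/
theorem rootGt3 : Final.RootGt3 := rootGt3_of_hinf hinfGt3

end Fermat.Agent.S34.Sat.HinfJ
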